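import Mathlib
import Fermat.Agent.LT.T6.H683.DarbouxSpec

/-!
# Row LT, tower T6, leaf T6.22.B.3 `DbLimC683` (helper682), OFF-MAIN

    dbLimC682 : Fermat.Agent.LT.T6.H683.DbLimC683          (VERBATIM, unconditional)

Registry row 1671; spec `LT/T6/H683/DarbouxSpec.lean` (helper683, sha256 5201439e) on
`LT/T6/H888/ArchClassSpec.lean` (helper888, sha256 9a3f1734), byte-identical copies.

The Darboux identity passes to uniform limits on `[0, t + u]`: with `δ = g - h`,
`|G δ (d)| ≤ d² sup_{[0,d]} |δ|` (`A` is non-negative and increasing on `[0, ∞)`),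
`|T f (t, u)| ≤ 2 sup_{[0, t+u]} |f|` (`|K| ≤ 2`, `0 ≤ arcosh ρ(t, u, φ) ≤ t + u`), both operators
are additive on functions continuous on `[0, ∞)`, so the defect of `g` is `≤ 5 (t + u)² ε`.
-/

set_option autoImplicit false

open MeasureTheory Set

noncomputable section

namespace Fermat.Agent.LT.T6.H682

open Fermat.Agent.LT.T6 Fermat.Agent.LT.T6.H888 Fermat.Agent.LT.T6.H683

/-! ## 1. `ρ` and `arcosh ρ` -/

theorem one_le_rho682 (t u φ : ℝ) : 1 ≤ rho888 t u φ := by
  unfold rho888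
  have hct := Real.one_le_cosh t
  have hcu := Real.one_le_cosh u
  have h1 := Real.cosh_sq t
  have h2 := Real.cosh_sq u
  have hX : 0 ≤ Real.cosh t * Real.cosh u - 1 := by nlinarith
  have key : |Real.sinh t * Real.sinh u| ≤ Real.cosh t * Real.cosh u - 1 := by
    apply abs_le_of_sq_le_sq _ hX
    nlinarith [sq_nonneg (Real.cosh t - Real.cosh u)]
  have hc : |Real.cos φ| ≤ 1 := Real.abs_cos_le_one φ
  have h3 : |Real.sinh t * Real.sinh u * Real.cos φ| ≤ Real.cosh t * Real.cosh u - 1 := by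
    rw [abs_mul]
    calc |Real.sinh t * Real.sinh u| * |Real.cos φ|
        ≤ |Real.sinh t * Real.sinh u| * 1 :=
          mul_le_mul_of_nonneg_left hc (abs_nonneg _)
      _ ≤ Real.cosh t * Real.cosh u - 1 := by rw [mul_one]; exact key
  have h4 := neg_abs_le (Real.sinh t * Real.sinh u * Real.cos φ)
  linarith

theorem rho_le682 {t u : ℝ} (ht : 0 ≤ t) (hu : 0 ≤ u) (φ : ℝ) :
    rho888 t u φ ≤ Real.cosh (t + u) := by
  rw [Real.cosh_add]
  unfold rho888
  have h0 : 0 ≤ Real.sinh t * Real.sinh u :=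
    mul_nonneg (Real.sinh_nonneg_iff.mpr ht) (Real.sinh_nonneg_iff.mpr hu)
  have h1 : Real.sinh t * Real.sinh u * Real.cos φ ≤ Real.sinh t * Real.sinh u * 1 :=
    mul_le_mul_of_nonneg_left (Real.cos_le_one φ) h0
  linarith

theorem arcosh_rho_nonneg682 (t u φ : ℝ) : 0 ≤ Real.arcosh (rho888 t u φ) :=
  Real.arcosh_nonneg (one_le_rho682 t u φ)

theorem arcosh_rho_le682 {t u : ℝ} (ht : 0 ≤ t) (hu : 0 ≤ u) (φ : ℝ) :
    Real.arcosh (rho888 t u φ) ≤ t + u := by
  have h1 := one_le_rho682 t u φ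
  have h3 : Real.arcosh (rho888 t u φ) ≤ Real.arcosh (Real.cosh (t + u)) :=
    (Real.arcosh_le_arcosh (by linarith) (Real.cosh_pos _)).mpr (rho_le682 ht hu φ)
  rwa [Real.arcosh_cosh (by linarith)] at h3

theorem continuous_rho682 (t : ℝ) : Continuous fun p : ℝ × ℝ => rho888 t p.1 p.2 := by
  unfold rho888
  exact (continuous_const.mul (Real.continuous_cosh.comp continuous_fst)).add
    ((continuous_const.mul (Real.continuous_sinh.comp continuous_fst)).mul
      (Real.continuous_cos.comp continuous_snd))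

theorem continuous_arcosh_rho682 (t : ℝ) :
    Continuous fun p : ℝ × ℝ => Real.arcosh (rho888 t p.1 p.2) :=
  Real.continuousOn_arcosh.comp_continuous (continuous_rho682 t)
    (fun p => one_le_rho682 t p.1 p.2)

/-! ## 2. The kernel -/

theorem abs_tanh_le_one682 (x : ℝ) : |Real.tanh x| ≤ 1 :=
  abs_le.mpr ⟨(Real.neg_one_lt_tanh x).le, (Real.tanh_lt_one x).le⟩

theorem abs_kerW_le682 (n : ℤ) (t u φ : ℝ) : |kerW888 n t u φ| ≤ 2 := by
  unfold kerW888
  split_ifs
  · norm_num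
  · have h1 := abs_tanh_le_one682 (t / 2)
    have h2 := abs_tanh_le_one682 (u / 2)
    have h3 : |Real.cos φ| ≤ 1 := Real.abs_cos_le_one φ
    have h4 : |Real.tanh (t / 2) * Real.tanh (u / 2) * Real.cos φ| ≤ 1 := by
      rw [abs_mul, abs_mul]
      calc |Real.tanh (t / 2)| * |Real.tanh (u / 2)| * |Real.cos φ|
          ≤ 1 * 1 * 1 :=
            mul_le_mul (mul_le_mul h1 h2 (abs_nonneg _) zero_le_one) h3 (abs_nonneg _)
              (by norm_num)
        _ = 1 := by norm_num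
    calc |1 + Real.tanh (t / 2) * Real.tanh (u / 2) * Real.cos φ|
        ≤ |(1 : ℝ)| + |Real.tanh (t / 2) * Real.tanh (u / 2) * Real.cos φ| := abs_add_le _ _
      _ ≤ 2 := by rw [abs_one]; linarith

theorem continuous_tanh682 : Continuous Real.tanh := by
  have h : Real.tanh = fun x => Real.sinh x / Real.cosh x := by
    funext x
    exact Real.tanh_eq_sinh_div_cosh x
  rw [h]
  exact Real.continuous_sinh.div Real.continuous_cosh (fun x => (Real.cosh_pos x).ne')

theorem continuous_kerW682 (n : ℤ) (t : ℝ) :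
    Continuous fun p : ℝ × ℝ => kerW888 n t p.1 p.2 := by
  unfold kerW888
  split_ifs
  · exact continuous_const
  · exact continuous_const.add ((continuous_const.mul
      (continuous_tanh682.comp (continuous_fst.div_const 2))).mul
        (Real.continuous_cos.comp continuous_snd))

/-! ## 3. The weight -/

theorem wtA_nonneg682 (n : ℤ) {r : ℝ} (hr : 0 ≤ r) : 0 ≤ wtA888 n r := by
  unfold wtA888
  have h1 : 0 ≤ Real.sinh r := Real.sinh_nonneg_iff.mpr hr
  have h2 := Real.one_le_cosh r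
  split_ifs
  · exact h1
  · exact mul_nonneg h1 (by linarith)

theorem wtA_pos682 (n : ℤ) {r : ℝ} (hr : 0 < r) : 0 < wtA888 n r := by
  unfold wtA888
  have h1 : 0 < Real.sinh r := Real.sinh_pos_iff.mpr hr
  have h2 := Real.one_le_cosh r
  split_ifs
  · exact h1
  · exact mul_pos h1 (by linarith)

theorem wtA_mono682 (n : ℤ) {q r : ℝ} (hq : 0 ≤ q) (hqr : q ≤ r) :
    wtA888 n q ≤ wtA888 n r := by
  unfold wtA888
  have h1 : Real.sinh q ≤ Real.sinh r := Real.sinh_le_sinh.mpr hqr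
  have h2 : Real.cosh q ≤ Real.cosh r := by
    rw [Real.cosh_le_cosh, abs_of_nonneg hq, abs_of_nonneg (hq.trans hqr)]
    exact hqr
  have h3 : 0 ≤ Real.sinh q := Real.sinh_nonneg_iff.mpr hq
  have h4 := Real.one_le_cosh q
  split_ifs
  · exact h1
  · exact mul_le_mul h1 (by linarith) (by linarith) (h3.trans h1)

theorem continuous_wtA682 (n : ℤ) : Continuous (wtA888 n) := by
  unfold wtA888
  split_ifs
  · exact Real.continuous_sinh
  · exact Real.continuous_sinh.mul (continuous_const.add Real.continuous_cosh)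

/-! ## 4. Bounds for the Green operator and the translation -/

theorem norm_inner_le682 (n : ℤ) (f : ℝ → ℂ) {M r : ℝ} (hr : 0 ≤ r)
    (hM : ∀ q ∈ Icc (0 : ℝ) r, ‖f q‖ ≤ M) :
    ‖∫ q in (0 : ℝ)..r, ((wtA888 n q : ℝ) : ℂ) * f q‖ ≤ wtA888 n r * M * r := by
  have h := intervalIntegral.norm_integral_le_of_norm_le_const (a := (0 : ℝ)) (b := r)
    (C := wtA888 n r * M) (f := fun q => ((wtA888 n q : ℝ) : ℂ) * f q) (by
      intro q hq
      rw [uIoc_of_le hr] at hq
      have hq0 : 0 ≤ q := hq.1.le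
      rw [norm_mul, Complex.norm_real, Real.norm_eq_abs, abs_of_nonneg (wtA_nonneg682 n hq0)]
      exact mul_le_mul (wtA_mono682 n hq0 hq.2) (hM q ⟨hq0, hq.2⟩) (norm_nonneg _)
        (wtA_nonneg682 n hr))
  rwa [sub_zero, abs_of_nonneg hr] at h

theorem norm_outer_le682 (n : ℤ) (f : ℝ → ℂ) {M r : ℝ} (hr : 0 < r)
    (hM : ∀ q ∈ Icc (0 : ℝ) r, ‖f q‖ ≤ M) :
    ‖(((wtA888 n r)⁻¹ : ℝ) : ℂ) * ∫ q in (0 : ℝ)..r, ((wtA888 n q : ℝ) : ℂ) * f q‖ ≤ M * r := by
  have hA := wtA_pos682 n hr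
  rw [norm_mul, Complex.norm_real, Real.norm_eq_abs, abs_of_nonneg (inv_nonneg.mpr hA.le)]
  calc (wtA888 n r)⁻¹ * ‖∫ q in (0 : ℝ)..r, ((wtA888 n q : ℝ) : ℂ) * f q‖
      ≤ (wtA888 n r)⁻¹ * (wtA888 n r * M * r) :=
        mul_le_mul_of_nonneg_left (norm_inner_le682 n f hr.le hM) (inv_nonneg.mpr hA.le)
    _ = M * r := by field_simp

theorem norm_gL_le682 (n : ℤ) (f : ℝ → ℂ) {M t : ℝ} (ht : 0 ≤ t)
    (hM : ∀ q ∈ Icc (0 : ℝ) t, ‖f q‖ ≤ M) : ‖gL888 n f t‖ ≤ M * t * t := by
  unfold gL888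
  have hM0 : 0 ≤ M := (norm_nonneg _).trans (hM 0 ⟨le_rfl, ht⟩)
  have h := intervalIntegral.norm_integral_le_of_norm_le_const (a := (0 : ℝ)) (b := t)
    (C := M * t) (f := fun r => (((wtA888 n r)⁻¹ : ℝ) : ℂ) *
      ∫ q in (0 : ℝ)..r, ((wtA888 n q : ℝ) : ℂ) * f q) (by
      intro r hr
      rw [uIoc_of_le ht] at hr
      exact (norm_outer_le682 n f hr.1 (fun q hq => hM q ⟨hq.1, hq.2.trans hr.2⟩)).trans
        (mul_le_mul_of_nonneg_left hr.2 hM0))
  rwa [sub_zero, abs_of_nonneg ht] at h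

theorem norm_gT_le682 (n : ℤ) (f : ℝ → ℂ) {M t u : ℝ} (ht : 0 ≤ t) (hu : 0 ≤ u)
    (hM : ∀ x ∈ Icc (0 : ℝ) (t + u), ‖f x‖ ≤ M) : ‖gT888 n f t u‖ ≤ 2 * M := by
  unfold gT888
  have hM0 : 0 ≤ M := (norm_nonneg _).trans (hM 0 ⟨le_rfl, by linarith⟩)
  have hpi : 0 < 2 * Real.pi := by positivity
  have h := intervalIntegral.norm_integral_le_of_norm_le_const (a := (0 : ℝ))
    (b := 2 * Real.pi) (C := 2 * M)
    (f := fun φ => ((kerW888 n t u φ : ℝ) : ℂ) * f (Real.arcosh (rho888 t u φ))) (by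
      intro φ _
      rw [norm_mul, Complex.norm_real, Real.norm_eq_abs]
      exact mul_le_mul (abs_kerW_le682 n t u φ)
        (hM _ ⟨arcosh_rho_nonneg682 t u φ, arcosh_rho_le682 ht hu φ⟩) (norm_nonneg _)
        (by norm_num))
  rw [sub_zero, abs_of_nonneg hpi.le] at h
  rw [norm_mul, Complex.norm_real, Real.norm_eq_abs, abs_of_nonneg (by positivity)]
  calc 1 / (2 * Real.pi) * ‖∫ φ in (0 : ℝ)..(2 * Real.pi),
        ((kerW888 n t u φ : ℝ) : ℂ) * f (Real.arcosh (rho888 t u φ))‖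
      ≤ 1 / (2 * Real.pi) * (2 * M * (2 * Real.pi)) :=
        mul_le_mul_of_nonneg_left h (by positivity)
    _ = 2 * M := by field_simp

/-! ## 5. Integrability and continuity -/

theorem continuousOn_innerFn682 (n : ℤ) {f : ℝ → ℂ} (hf : ContinuousOn f (Ici 0)) :
    ContinuousOn (fun q => ((wtA888 n q : ℝ) : ℂ) * f q) (Ici 0) :=
  (Complex.continuous_ofReal.comp (continuous_wtA682 n)).continuousOn.mul hf

theorem intervalIntegrable_inner682 (n : ℤ) {f : ℝ → ℂ} (hf : ContinuousOn f (Ici 0)) {r : ℝ}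
    (hr : 0 ≤ r) :
    IntervalIntegrable (fun q => ((wtA888 n q : ℝ) : ℂ) * f q) volume 0 r := by
  apply ContinuousOn.intervalIntegrable
  rw [uIcc_of_le hr]
  exact (continuousOn_innerFn682 n hf).mono (fun x hx => hx.1)

theorem continuousOn_inner682 (n : ℤ) {f : ℝ → ℂ} (hf : ContinuousOn f (Ici 0)) {t : ℝ}
    (ht : 0 ≤ t) :
    ContinuousOn (fun r => ∫ q in (0 : ℝ)..r, ((wtA888 n q : ℝ) : ℂ) * f q) (Icc 0 t) := by
  have h := intervalIntegral.continuousOn_primitive_interval (μ := volume) (a := (0 : ℝ))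
    (b := t) (f := fun q => ((wtA888 n q : ℝ) : ℂ) * f q) (by
      rw [uIcc_of_le ht]
      exact ((continuousOn_innerFn682 n hf).mono (fun x hx => hx.1)).integrableOn_Icc)
  rwa [uIcc_of_le ht] at h

theorem exists_bound682 {f : ℝ → ℂ} (hf : ContinuousOn f (Ici 0)) (t : ℝ) :
    ∃ M : ℝ, ∀ q ∈ Icc (0 : ℝ) t, ‖f q‖ ≤ M :=
  isCompact_Icc.exists_bound_of_continuousOn (hf.mono (fun _ hx => hx.1))

theorem intervalIntegrable_outer682 (n : ℤ) {f : ℝ → ℂ} (hf : ContinuousOn f (Ici 0)) {t : ℝ}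
    (ht : 0 ≤ t) :
    IntervalIntegrable (fun r => (((wtA888 n r)⁻¹ : ℝ) : ℂ) *
      ∫ q in (0 : ℝ)..r, ((wtA888 n q : ℝ) : ℂ) * f q) volume 0 t := by
  rw [intervalIntegrable_iff_integrableOn_Ioc_of_le ht]
  obtain ⟨M, hM⟩ := exists_bound682 hf t
  have hM0 : 0 ≤ M := (norm_nonneg _).trans (hM 0 ⟨le_rfl, ht⟩)
  have hcont : ContinuousOn (fun r => (((wtA888 n r)⁻¹ : ℝ) : ℂ) *
      ∫ q in (0 : ℝ)..r, ((wtA888 n q : ℝ) : ℂ) * f q) (Ioc 0 t) := by
    refine ContinuousOn.mul ?_ ((continuousOn_inner682 n hf ht).mono Ioc_subset_Icc_self)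
    refine Complex.continuous_ofReal.comp_continuousOn ?_
    exact (continuous_wtA682 n).continuousOn.inv₀ (fun r hr => (wtA_pos682 n hr.1).ne')
  refine Integrable.mono' (integrable_const (M * t))
    (hcont.aestronglyMeasurable measurableSet_Ioc) ?_
  refine (ae_restrict_iff' measurableSet_Ioc).mpr (Filter.Eventually.of_forall fun r hr => ?_)
  exact (norm_outer_le682 n f hr.1 (fun q hq => hM q ⟨hq.1, hq.2.trans hr.2⟩)).trans
    (mul_le_mul_of_nonneg_left hr.2 hM0)

theorem continuousOn_gL682 (n : ℤ) {f : ℝ → ℂ} (hf : ContinuousOn f (Ici 0)) :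
    ContinuousOn (gL888 n f) (Ici 0) := by
  intro x hx
  have hx0 : (0 : ℝ) ≤ x := hx
  have hT : (0 : ℝ) ≤ x + 1 := by linarith
  have h := intervalIntegral.continuousOn_primitive_interval (μ := volume) (a := (0 : ℝ))
    (b := x + 1) (f := fun r => (((wtA888 n r)⁻¹ : ℝ) : ℂ) *
      ∫ q in (0 : ℝ)..r, ((wtA888 n q : ℝ) : ℂ) * f q) (by
      rw [uIcc_of_le hT]
      have := (intervalIntegrable_iff_integrableOn_Icc_of_le hT).mp
        (intervalIntegrable_outer682 n hf hT)
      exact this)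
  rw [uIcc_of_le hT] at h
  have h1 : ContinuousWithinAt (gL888 n f) (Icc 0 (x + 1)) x := h x ⟨hx0, by linarith⟩
  refine h1.mono_of_mem_nhdsWithin ?_
  have : Icc (0 : ℝ) (x + 1) = Ici 0 ∩ Iic (x + 1) := by
    ext y
    simp [Icc, Ici, Iic]
  rw [this]
  exact inter_mem_nhdsWithin _ (Iic_mem_nhds (by linarith))

theorem continuous_gTFn682 (n : ℤ) {f : ℝ → ℂ} (hf : ContinuousOn f (Ici 0)) (t : ℝ) :
    Continuous fun p : ℝ × ℝ =>
      ((kerW888 n t p.1 p.2 : ℝ) : ℂ) * f (Real.arcosh (rho888 t p.1 p.2)) :=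
  (Complex.continuous_ofReal.comp (continuous_kerW682 n t)).mul
    (hf.comp_continuous (continuous_arcosh_rho682 t)
      (fun p => arcosh_rho_nonneg682 t p.1 p.2))

theorem continuous_gT682 (n : ℤ) {f : ℝ → ℂ} (hf : ContinuousOn f (Ici 0)) (t : ℝ) :
    Continuous fun q => gT888 n f t q := by
  unfold gT888
  refine continuous_const.mul ?_
  exact intervalIntegral.continuous_parametric_intervalIntegral_of_continuous'
    (f := fun q φ => ((kerW888 n t q φ : ℝ) : ℂ) * f (Real.arcosh (rho888 t q φ)))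
    (continuous_gTFn682 n hf t) 0 (2 * Real.pi)

/-! ## 6. Additivity -/

theorem gT_congr682 (n : ℤ) {f f' : ℝ → ℂ} (h : ∀ x : ℝ, 0 ≤ x → f x = f' x) (t u : ℝ) :
    gT888 n f t u = gT888 n f' t u := by
  unfold gT888
  congr 1
  refine intervalIntegral.integral_congr fun φ _ => ?_
  rw [h _ (arcosh_rho_nonneg682 t u φ)]

theorem gT_sub682 (n : ℤ) {f f' : ℝ → ℂ} (hf : ContinuousOn f (Ici 0))
    (hf' : ContinuousOn f' (Ici 0)) (t u : ℝ) :
    gT888 n (fun q => f q - f' q) t u = gT888 n f t u - gT888 n f' t u := by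
  unfold gT888
  have h1 : IntervalIntegrable
      (fun φ => ((kerW888 n t u φ : ℝ) : ℂ) * f (Real.arcosh (rho888 t u φ))) volume 0
      (2 * Real.pi) :=
    ((continuous_gTFn682 n hf t).comp (Continuous.prodMk_right u)).intervalIntegrable _ _
  have h2 : IntervalIntegrable
      (fun φ => ((kerW888 n t u φ : ℝ) : ℂ) * f' (Real.arcosh (rho888 t u φ))) volume 0
      (2 * Real.pi) :=
    ((continuous_gTFn682 n hf' t).comp (Continuous.prodMk_right u)).intervalIntegrable _ _
  rw [← mul_sub, ← intervalIntegral.integral_sub h1 h2]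
  congr 1
  refine intervalIntegral.integral_congr fun φ _ => ?_
  beta_reduce
  ring

theorem gL_sub682 (n : ℤ) {f f' : ℝ → ℂ} (hf : ContinuousOn f (Ici 0))
    (hf' : ContinuousOn f' (Ici 0)) {t : ℝ} (ht : 0 ≤ t) :
    gL888 n (fun q => f q - f' q) t = gL888 n f t - gL888 n f' t := by
  unfold gL888
  rw [← intervalIntegral.integral_sub (intervalIntegrable_outer682 n hf ht)
    (intervalIntegrable_outer682 n hf' ht)]
  refine intervalIntegral.integral_congr fun r hr => ?_
  rw [uIcc_of_le ht] at hr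
  beta_reduce
  rw [← mul_sub, ← intervalIntegral.integral_sub (intervalIntegrable_inner682 n hf hr.1)
    (intervalIntegrable_inner682 n hf' hr.1)]
  congr 1
  refine intervalIntegral.integral_congr fun q _ => ?_
  ring

/-! ## 7. The leaf -/

/-- **LEAF T6.22.B.3 `DbLimC683`** (VERBATIM the Prop of `LT/T6/H683/DarbouxSpec.lean`). -/
theorem dbLimC682 : DbLimC683 := by
  intro n _ g hg happrox t u ht hu
  have hR : 0 < t + u := by linarith
  have key : ∀ ε : ℝ, 0 < ε →
      ‖gT888 n (gL888 n g) t u - (gL888 n g t + gL888 n (fun q => gT888 n g t q) u)‖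
        ≤ 5 * ((t + u) * (t + u)) * ε := by
    intro ε hε
    obtain ⟨h, hh, hD, hgh⟩ := happrox (t + u) ε hR hε
    have hDh := hD t u ht hu
    set δ : ℝ → ℂ := fun q => g q - h q with hδdef
    have hδc : ContinuousOn δ (Ici 0) := hg.sub hh
    have hδ : ∀ q ∈ Icc (0 : ℝ) (t + u), ‖δ q‖ ≤ ε := hgh
    have e1 : ∀ x : ℝ, 0 ≤ x → gL888 n g x = gL888 n h x + gL888 n δ x := by
      intro x hx
      have := gL_sub682 n hg hh hx
      rw [hδdef, this]
      ring
    have e2 : gT888 n (gL888 n g) t u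
        = gT888 n (gL888 n h) t u + gT888 n (gL888 n δ) t u := by
      have h1 := gT_sub682 n (continuousOn_gL682 n hg) (continuousOn_gL682 n hh) t u
      have h2 : gT888 n (fun q => gL888 n g q - gL888 n h q) t u = gT888 n (gL888 n δ) t u :=
        gT_congr682 n (fun x hx => by rw [e1 x hx]; ring) t u
      rw [h2] at h1
      rw [h1]
      ring
    have e3 : ∀ q : ℝ, gT888 n g t q = gT888 n h t q + gT888 n δ t q := by
      intro q
      have := gT_sub682 n hg hh t q
      rw [hδdef, this]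
      ring
    have e4 : gL888 n (fun q => gT888 n g t q) u
        = gL888 n (fun q => gT888 n h t q) u + gL888 n (fun q => gT888 n δ t q) u := by
      have h1 := gL_sub682 n (continuous_gT682 n hg t).continuousOn
        (continuous_gT682 n hh t).continuousOn hu.le
      have h2 : (fun q => gT888 n g t q - gT888 n h t q) = fun q => gT888 n δ t q := by
        funext q
        rw [e3 q]
        ring
      rw [h2] at h1
      rw [h1]
      ring
    have b1 : ‖gL888 n δ t‖ ≤ ε * t * t :=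
      norm_gL_le682 n δ ht.le (fun q hq => hδ q ⟨hq.1, by linarith [hq.2]⟩)
    have b2 : ‖gT888 n (gL888 n δ) t u‖ ≤ 2 * (ε * (t + u) * (t + u)) := by
      refine norm_gT_le682 n _ ht.le hu.le (fun x hx => ?_)
      refine (norm_gL_le682 n δ hx.1 (fun q hq => hδ q ⟨hq.1, hq.2.trans hx.2⟩)).trans ?_
      have hx0 := hx.1
      have hx1 := hx.2
      have : x * x ≤ (t + u) * (t + u) := mul_le_mul hx1 hx1 hx0 hR.le
      nlinarith
    have b3 : ‖gL888 n (fun q => gT888 n δ t q) u‖ ≤ 2 * ε * u * u := by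
      refine norm_gL_le682 n _ hu.le (fun q hq => ?_)
      exact norm_gT_le682 n δ ht.le hq.1 (fun x hx => hδ x ⟨hx.1, by linarith [hx.2, hq.2]⟩)
    have e5 : gT888 n (gL888 n g) t u - (gL888 n g t + gL888 n (fun q => gT888 n g t q) u)
        = gT888 n (gL888 n δ) t u - gL888 n δ t - gL888 n (fun q => gT888 n δ t q) u := by
      rw [e2, e1 t ht.le, e4, hDh]
      ring
    rw [e5]
    have n1 := norm_sub_le (gT888 n (gL888 n δ) t u - gL888 n δ t)
      (gL888 n (fun q => gT888 n δ t q) u)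
    have n2 := norm_sub_le (gT888 n (gL888 n δ) t u) (gL888 n δ t)
    have ht2 : t * t ≤ (t + u) * (t + u) := by nlinarith
    have hu2 : u * u ≤ (t + u) * (t + u) := by nlinarith
    nlinarith
  have hzero : ‖gT888 n (gL888 n g) t u
      - (gL888 n g t + gL888 n (fun q => gT888 n g t q) u)‖ = 0 := by
    by_contra hne
    have hpos : 0 < ‖gT888 n (gL888 n g) t u
        - (gL888 n g t + gL888 n (fun q => gT888 n g t q) u)‖ :=
      lt_of_le_of_ne (norm_nonneg _) (Ne.symm hne)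
    set X := ‖gT888 n (gL888 n g) t u
        - (gL888 n g t + gL888 n (fun q => gT888 n g t q) u)‖ with hX
    have hC : 0 < 5 * ((t + u) * (t + u)) := by positivity
    have := key (X / (2 * (5 * ((t + u) * (t + u))))) (by positivity)
    have e : 5 * ((t + u) * (t + u)) * (X / (2 * (5 * ((t + u) * (t + u))))) = X / 2 := by
      field_simp
    rw [e] at this
    linarith
  exact sub_eq_zero.mp (norm_eq_zero.mp hzero)

end Fermat.Agent.LT.T6.H682

end
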