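import Mathlib
import Fermat.Agent.LT.T6.H830.HCSpec
import Fermat.Agent.LT.T6.H189.ArchIntSpec

/-!
# Row LT, tower T6, leaf T6.29.I2 `IwasawaIntCC` (helper682), OFF-MAIN: the ADAPTER

    iwasawaIntCC_of189 : H189.U2HaarC → H189.IwasawaCC → H830.IwasawaIntCC

Registry row 1446.  Both sides VERBATIM: `LT/T6/H189/ArchIntSpec.lean` (helper189, sha256 4ac6c090,
the measure identity `μ' = c • (iwaC)_* (du₁ du₂ dw dκ)`) and `LT/T6/H830/HCSpec.lean` (helper830,
sha256 c3e7d846, the integral formula for right-`U(2)`-invariant functions in the coordinates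
`bC ζ r w`); byte-identical copies.  No second proof of the leaves of T6.23.

Proof: `integral_map`; the `κ`-integral disappears (`κ` is a probability measure carried by `U(2)`
and `F` is right-`U(2)`-invariant); Fubini; the linear change of variables
`(u₁, u₂) = ((ζ + r) / 2, (ζ - r) / 2)` of determinant `-1/2`; `bC ζ r w = dgC u₁ u₂ * unC w`.
The constant is `c.toReal / 2`.
-/

set_option autoImplicit false

open MeasureTheory
open scoped Matrix ENNReal

noncomputable section

namespace Fermat.Agent.LT.T6.H682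

open Fermat.Agent.LT.T6

/-! ## 1. The coordinates -/

theorem coe_dgC682 (u₁ u₂ : ℝ) :
    ((H189.dgC u₁ u₂ : GL (Fin 2) ℂ) : Matrix (Fin 2) (Fin 2) ℂ)
      = !![(Real.exp u₁ : ℂ), 0; 0, (Real.exp u₂ : ℂ)] := rfl

theorem coe_unC682 (w : ℂ) :
    ((H189.unC w : GL (Fin 2) ℂ) : Matrix (Fin 2) (Fin 2) ℂ) = !![1, w; 0, 1] := rfl

theorem dgC_inv682 (u₁ u₂ : ℝ) : (H189.dgC u₁ u₂)⁻¹ = H189.dgC (-u₁) (-u₂) := by
  apply inv_eq_of_mul_eq_one_right
  apply Units.ext
  rw [Units.val_mul, coe_dgC682, coe_dgC682, Units.val_one]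
  refine Matrix.ext fun i j => ?_
  fin_cases i <;> fin_cases j <;>
    simp [Matrix.mul_apply, Fin.sum_univ_two, ← Complex.exp_add]

theorem unC_inv682 (w : ℂ) : (H189.unC w)⁻¹ = H189.unC (-w) := by
  apply inv_eq_of_mul_eq_one_right
  apply Units.ext
  rw [Units.val_mul, coe_unC682, coe_unC682, Units.val_one]
  refine Matrix.ext fun i j => ?_
  fin_cases i <;> fin_cases j <;> simp [Matrix.mul_apply, Fin.sum_univ_two]

theorem continuous_coe_dgC682 :
    Continuous fun u : ℝ × ℝ =>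
      ((H189.dgC u.1 u.2 : GL (Fin 2) ℂ) : Matrix (Fin 2) (Fin 2) ℂ) := by
  refine continuous_matrix fun i j => ?_
  fin_cases i <;> fin_cases j <;> simp [coe_dgC682] <;> fun_prop

theorem continuous_coe_unC682 :
    Continuous fun w : ℂ => ((H189.unC w : GL (Fin 2) ℂ) : Matrix (Fin 2) (Fin 2) ℂ) := by
  refine continuous_matrix fun i j => ?_
  fin_cases i <;> fin_cases j <;> simp [coe_unC682] <;> fun_prop

theorem continuous_dgC682 : Continuous fun u : ℝ × ℝ => H189.dgC u.1 u.2 := by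
  rw [Units.continuous_iff]
  refine ⟨continuous_coe_dgC682, ?_⟩
  simp_rw [dgC_inv682]
  exact continuous_coe_dgC682.comp (continuous_neg.prodMap continuous_neg)

theorem continuous_unC682 : Continuous fun w : ℂ => H189.unC w := by
  rw [Units.continuous_iff]
  refine ⟨continuous_coe_unC682, ?_⟩
  simp_rw [unC_inv682]
  exact continuous_coe_unC682.comp continuous_neg

theorem continuous_iwaC682 : Continuous H189.iwaC := by
  unfold H189.iwaC
  exact ((continuous_dgC682.comp (continuous_fst.prodMk (continuous_fst.comp continuous_snd))).mul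
    (continuous_unC682.comp (continuous_fst.comp (continuous_snd.comp continuous_snd)))).mul
    (continuous_snd.comp (continuous_snd.comp continuous_snd))

theorem bC_eq682 (ζ r : ℝ) (w : ℂ) :
    H830.bC ζ r w = H189.dgC ((ζ + r) / 2) ((ζ - r) / 2) * H189.unC w := by
  apply Units.ext
  rw [Units.val_mul, coe_dgC682, coe_unC682, H830.coe_bC830]
  refine Matrix.ext fun i j => ?_
  fin_cases i <;> fin_cases j <;> simp [Matrix.mul_apply, Fin.sum_univ_two]

/-! ## 2. The linear change of variables `(ζ, r) ↦ ((ζ + r) / 2, (ζ - r) / 2)` -/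

/-- `(ζ, r) ↦ ((ζ + r) / 2, (ζ - r) / 2)`. -/
def Lmap682 : (ℝ × ℝ) →ₗ[ℝ] (ℝ × ℝ) :=
  Matrix.toLin (Module.Basis.finTwoProd ℝ) (Module.Basis.finTwoProd ℝ) !![1 / 2, 1 / 2; 1 / 2, -(1 / 2)]

theorem Lmap_apply682 (x : ℝ × ℝ) : Lmap682 x = ((x.1 + x.2) / 2, (x.1 - x.2) / 2) := by
  rw [Lmap682, Matrix.toLin_finTwoProd_apply]
  ext <;> simp <;> ring

theorem det_Lmap682 : LinearMap.det Lmap682 = -(1 / 2) := by
  rw [Lmap682, LinearMap.det_toLin, Matrix.det_fin_two_of]
  norm_num

theorem map_Lmap682 :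
    Measure.map Lmap682 (volume : Measure (ℝ × ℝ)) = (2 : ℝ≥0∞) • (volume : Measure (ℝ × ℝ)) := by
  have hdet : LinearMap.det Lmap682 ≠ 0 := by rw [det_Lmap682]; norm_num
  rw [Measure.map_linearMap_addHaar_eq_smul_addHaar _ hdet, det_Lmap682]
  congr 1
  have : |(-(1 / 2 : ℝ))⁻¹| = 2 := by norm_num
  rw [this]
  simp

theorem measurable_Lmap682 : Measurable Lmap682 :=
  (LinearMap.continuous_of_finiteDimensional Lmap682).measurable

theorem integral_comp_Lmap682 (H : ℝ × ℝ → ℂ) (hH : Integrable H volume) :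
    Integrable (fun x => H (Lmap682 x)) volume ∧ ∫ x, H (Lmap682 x) = 2 * ∫ x, H x := by
  have hsm : AEStronglyMeasurable H (Measure.map Lmap682 (volume : Measure (ℝ × ℝ))) := by
    rw [map_Lmap682]
    exact hH.aestronglyMeasurable.smul_measure _
  constructor
  · refine (integrable_map_measure hsm measurable_Lmap682.aemeasurable).mp ?_
    rw [map_Lmap682]
    exact hH.smul_measure (by simp)
  · rw [← integral_map measurable_Lmap682.aemeasurable hsm, map_Lmap682, integral_smul_measure]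
    simp

/-! ## 3. The adapter -/

/-- **T6.29.I2**: the Iwasawa integration formula on `GL₂(ℂ)` in the right-`U(2)`-invariant form
of `LT/T6/H830/HCSpec.lean`, from the measure identity of `LT/T6/H189/ArchIntSpec.lean`. -/
theorem iwasawaIntCC_of189 (hU : H189.U2HaarC) (hI : H189.IwasawaCC) : H830.IwasawaIntCC := by
  let mG : MeasurableSpace (GL (Fin 2) ℂ) := borel _
  have : BorelSpace (GL (Fin 2) ℂ) := ⟨rfl⟩
  obtain ⟨κ, hκ⟩ := hU
  intro μ' hμ'
  obtain ⟨c, hc0, hctop, hμ⟩ := hI κ hκ μ' hμ'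
  have : IsProbabilityMeasure κ := ⟨hκ.prob⟩
  refine ⟨c.toReal / 2, div_pos (ENNReal.toReal_pos hc0 hctop) two_pos, ?_⟩
  intro F hFc hFs hFinv
  -- the measure of the Iwasawa coordinates
  set M : Measure (ℝ × ℝ × ℂ × GL (Fin 2) ℂ) :=
    (volume : Measure ℝ).prod ((volume : Measure ℝ).prod ((volume : Measure ℂ).prod κ)) with hM
  have hμM : μ' = c • Measure.map H189.iwaC M := hμ
  have hiwa : Measurable H189.iwaC := continuous_iwaC682.measurable
  have hFm : AEStronglyMeasurable F (Measure.map H189.iwaC M) := hFc.aestronglyMeasurable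
  have hFint : Integrable F μ' := hFc.integrable_of_hasCompactSupport hFs
  have hFint' : Integrable (fun p => F (H189.iwaC p)) M := by
    rw [hμM] at hFint
    exact (integrable_map_measure hFm hiwa.aemeasurable).mp
      ((integrable_smul_measure hc0 hctop).mp hFint)
  have h1 : ∫ g, F g ∂μ' = c.toReal • ∫ p, F (H189.iwaC p) ∂M := by
    conv_lhs => rw [hμM]
    rw [integral_smul_measure, integral_map hiwa.aemeasurable hFm]
  -- forget `k`
  set Ψ₀ : (ℝ × ℝ) × ℂ → ℂ := fun q => F (H189.dgC q.1.1 q.1.2 * H189.unC q.2) with hΨ₀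
  have hΨc : Continuous Ψ₀ :=
    hFc.comp ((continuous_dgC682.comp continuous_fst).mul (continuous_unC682.comp continuous_snd))
  set Q : ℝ × ℝ × ℂ × GL (Fin 2) ℂ → (ℝ × ℝ) × ℂ := fun p => ((p.1, p.2.1), p.2.2.1) with hQ
  have hQm : Measurable Q :=
    (measurable_fst.prodMk (measurable_fst.comp measurable_snd)).prodMk
      (measurable_fst.comp (measurable_snd.comp measurable_snd))
  have hae : (fun p => F (H189.iwaC p)) =ᵐ[M] fun p => Ψ₀ (Q p) := by
    have hk : ∀ᵐ k ∂κ, k ∈ H189.U2 := by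
      rw [ae_iff]
      exact hκ.supp
    have h3 : ∀ᵐ p ∂((volume : Measure ℂ).prod κ), p.2 ∈ H189.U2 :=
      Measure.quasiMeasurePreserving_snd.ae hk
    have h2 : ∀ᵐ p ∂((volume : Measure ℝ).prod ((volume : Measure ℂ).prod κ)),
        p.2.2 ∈ H189.U2 := Measure.quasiMeasurePreserving_snd.ae h3
    have h1' : ∀ᵐ p ∂M, p.2.2.2 ∈ H189.U2 := Measure.quasiMeasurePreserving_snd.ae h2
    filter_upwards [h1'] with p hp
    exact hFinv p.2.2.2 _ hp
  have hQmap : Measure.map Q M = (volume : Measure ((ℝ × ℝ) × ℂ)) := by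
    have e0 : Measure.map Prod.fst ((volume : Measure ℂ).prod κ) = (volume : Measure ℂ) := by
      rw [Measure.map_fst_prod, measure_univ, one_smul]
    have e1 : Measure.map (Prod.map (id : ℝ → ℝ) (Prod.fst : ℂ × GL (Fin 2) ℂ → ℂ))
        ((volume : Measure ℝ).prod ((volume : Measure ℂ).prod κ))
          = (volume : Measure ℝ).prod (volume : Measure ℂ) := by
      rw [← Measure.map_prod_map _ _ measurable_id measurable_fst, Measure.map_id, e0]
    have e2 : Measure.map (Prod.map (id : ℝ → ℝ)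
        (Prod.map (id : ℝ → ℝ) (Prod.fst : ℂ × GL (Fin 2) ℂ → ℂ))) M
          = (volume : Measure ℝ).prod ((volume : Measure ℝ).prod (volume : Measure ℂ)) := by
      rw [hM, ← Measure.map_prod_map _ _ measurable_id (measurable_id.prodMap measurable_fst),
        Measure.map_id, e1]
    have e3 := (measurePreserving_prodAssoc (volume : Measure ℝ) (volume : Measure ℝ)
      (volume : Measure ℂ)).symm
    have e4 : Q = (MeasurableEquiv.prodAssoc : (ℝ × ℝ) × ℂ ≃ᵐ ℝ × ℝ × ℂ).symm ∘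
        (Prod.map (id : ℝ → ℝ) (Prod.map (id : ℝ → ℝ) (Prod.fst : ℂ × GL (Fin 2) ℂ → ℂ))) := by
      funext p
      rfl
    rw [e4, ← Measure.map_map (MeasurableEquiv.prodAssoc.symm.measurable)
      (measurable_id.prodMap (measurable_id.prodMap measurable_fst)), e2, e3.map_eq]
    rfl
  have hΨm : AEStronglyMeasurable Ψ₀ (Measure.map Q M) := hΨc.aestronglyMeasurable
  have h2 : ∫ p, F (H189.iwaC p) ∂M = ∫ q, Ψ₀ q := by
    have h := integral_map hQm.aemeasurable hΨm
    rw [hQmap] at h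
    exact (integral_congr_ae hae).trans h.symm
  have hΨint : Integrable Ψ₀ (volume : Measure ((ℝ × ℝ) × ℂ)) := by
    have h : Integrable Ψ₀ (Measure.map Q M) :=
      (integrable_map_measure hΨm hQm.aemeasurable).mpr (hFint'.congr hae)
    rw [hQmap] at h
    exact h
  -- Fubini
  set H : ℝ × ℝ → ℂ := fun u => ∫ w, Ψ₀ (u, w) with hH
  have hHint : Integrable H (volume : Measure (ℝ × ℝ)) := hΨint.integral_prod_left
  have h3 : ∫ q, Ψ₀ q = ∫ u, H u := integral_prod Ψ₀ hΨint
  -- change of variables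
  obtain ⟨hHL, h4⟩ := integral_comp_Lmap682 H hHint
  have h5 : ∫ x, H (Lmap682 x) = ∫ ζ, ∫ r, H (Lmap682 (ζ, r)) :=
    integral_prod (fun x => H (Lmap682 x)) hHL
  have h6 : ∀ ζ r : ℝ, H (Lmap682 (ζ, r)) = ∫ w, F (H830.bC ζ r w) := by
    intro ζ r
    simp only [hH, hΨ₀, Lmap_apply682, bC_eq682]
  have h5' : ∫ x, H (Lmap682 x) = ∫ ζ : ℝ, ∫ r : ℝ, ∫ w : ℂ, F (H830.bC ζ r w) := by
    rw [h5]
    simp_rw [h6]
  show ∫ g, F g ∂μ' = ((c.toReal / 2 : ℝ) : ℂ) * ∫ ζ : ℝ, ∫ r : ℝ, ∫ w : ℂ, F (H830.bC ζ r w)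
  rw [h1, h2, h3, ← h5']
  have h7 : ∫ u, H u = (1 / 2 : ℂ) * ∫ x, H (Lmap682 x) := by
    rw [h4]
    ring
  rw [h7, Complex.real_smul]
  push_cast
  ring

end Fermat.Agent.LT.T6.H682

end
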